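import Fermat.Agent.S16.Core.Fricke
import Fermat.Agent.S16.NormSturm

/-!
# S16 core, package PKG-4: the norm from `Γ₀(p)` to level one and the valence contradiction
-/

set_option autoImplicit false

namespace Fermat.Agent.S16

open UpperHalfPlane ModularForm CongruenceSubgroup
open scoped MatrixGroups ModularForm Manifold

local notation "𝕢" => Function.Periodic.qParam

theorem nrm_qParam_add {h : ℝ} (hh : h ≠ 0) (w : ℂ) : 𝕢 h (w + h) = 𝕢 h w := by
  have hh' : (h : ℂ) ≠ 0 := by exact_mod_cast hh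
  have : 2 * Real.pi * Complex.I * (w + h) / h
      = 2 * Real.pi * Complex.I * w / h + 2 * Real.pi * Complex.I := by
    field_simp
  rw [Function.Periodic.qParam, Function.Periodic.qParam, this, Complex.exp_add,
    Complex.exp_two_pi_mul_I, mul_one]

/-- A function given by a `q`-expansion in `𝕢 h` is `h`-periodic. -/
theorem nrm_periodic_of_hasSum {f : ℍ → ℂ} {c : ℕ → ℂ} {h : ℝ} (hh : h ≠ 0)
    (hf : ∀ τ : ℍ, HasSum (fun m ↦ c m • 𝕢 h τ ^ m) (f τ)) :
    Function.Periodic (f ∘ ofComplex) h := by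
  intro w
  by_cases hw : 0 < Complex.im w
  · have hw' : 0 < Complex.im (w + h) := by simp [hw]
    simp only [Function.comp_apply, ofComplex_apply_of_im_pos hw', ofComplex_apply_of_im_pos hw]
    have h1 := hf ⟨w + h, hw'⟩
    have h2 := hf ⟨w, hw⟩
    have hq : 𝕢 h ((⟨w + h, hw'⟩ : ℍ) : ℂ) = 𝕢 h ((⟨w, hw⟩ : ℍ) : ℂ) :=
      nrm_qParam_add hh w
    rw [hq] at h1
    exact h1.unique h2
  · have hw1 : Complex.im w ≤ 0 := not_lt.mp hw
    have hw' : Complex.im (w + h) ≤ 0 := by simpa using hw1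
    simp [ofComplex_apply_of_im_nonpos hw', ofComplex_apply_of_im_nonpos hw1]

/-- analyticity of the cusp function from a `q`-expansion. -/
theorem nrm_analyticAt_of_hasSum {f : ℍ → ℂ} {c : ℕ → ℂ} {h : ℝ} (hh : 0 < h) (hol : MDiff f)
    (hf : ∀ τ : ℍ, HasSum (fun m ↦ c m • 𝕢 h τ ^ m) (f τ)) :
    AnalyticAt ℂ (cuspFunction h f) 0 :=
  analyticAt_cuspFunction_zero hh (nrm_periodic_of_hasSum hh.ne' hf) hol
    (isBoundedAtImInfty_of_hasSum_qExpansion hh hf)

variable {p : ℕ} [Fact p.Prime] {k : ℤ} {A B : PowerSeries ℂ}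

/-- the point `(z + j) / p`. -/
noncomputable def nrmPt (p : ℕ) [Fact p.Prime] (j : ℕ) (z : ℍ) : ℍ :=
  ⟨((z : ℂ) + j) / p, by
    have hp : (0 : ℝ) < p := by exact_mod_cast (Fact.out : p.Prime).pos
    have : (((z : ℂ) + j) / p).im = z.im / p := by
      rw [Complex.div_natCast_im]
      simp
    rw [this]
    exact div_pos z.im_pos hp⟩

theorem nrm_famOf_some_eq {X Y : ModularForm (Gamma0 p) k}
    (hXY : ∀ z w : ℍ, (w : ℂ) = (p : ℂ) * (z : ℂ) → (⇑X ∣[k] ModularGroup.S) w = Y z)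
    (j : ZMod p) (z : ℍ) : famOf p k (⇑X) (some j) z = Y (nrmPt p j.val z) := by
  rw [famOf_some_apply]
  apply hXY
  have hp : (p : ℂ) ≠ 0 := by exact_mod_cast (Fact.out : p.Prime).ne_zero
  rw [UpperHalfPlane.coe_vadd]
  simp only [nrmPt]
  show _ = (p : ℂ) * (((z : ℂ) + (j.val : ℂ)) / p)
  field_simp
  push_cast
  ring

theorem nrm_hasSum_famOf_some {X Y : ModularForm (Gamma0 p) k}
    (hXY : ∀ z w : ℍ, (w : ℂ) = (p : ℂ) * (z : ℂ) → (⇑X ∣[k] ModularGroup.S) w = Y z)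
    (j : ZMod p) (z : ℍ) :
    HasSum (fun n : ℕ ↦ (Complex.exp (2 * Real.pi * Complex.I / p) ^ (j.val * n) *
      (qExpansion 1 Y).coeff n) • 𝕢 (p : ℝ) z ^ n) (famOf p k (⇑X) (some j) z) := by
  rw [nrm_famOf_some_eq hXY]
  have hp : (p : ℂ) ≠ 0 := by exact_mod_cast (Fact.out : p.Prime).ne_zero
  have h1 := UpperHalfPlane.hasSum_qExpansion (f := ⇑Y) one_pos
    (SlashInvariantFormClass.periodic_comp_ofComplex Y
      (CongruenceSubgroup.one_mem_strictPeriods_Gamma0 p))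
    (ModularFormClass.holo Y) (ModularFormClass.bdd_at_infty Y) (nrmPt p j.val z)
  have hq : 𝕢 (1 : ℝ) ((nrmPt p j.val z : ℍ) : ℂ)
      = Complex.exp (2 * Real.pi * Complex.I / p) ^ j.val * 𝕢 (p : ℝ) z := by
    rw [Function.Periodic.qParam, Function.Periodic.qParam, ← Complex.exp_nat_mul,
      ← Complex.exp_add]
    congr 1
    show 2 * Real.pi * Complex.I * (((z : ℂ) + (j.val : ℂ)) / p) / ((1 : ℝ) : ℂ) = _
    push_cast
    field_simp
    ring
  convert h1 using 2 with n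
  rw [hq, mul_pow, ← pow_mul, smul_eq_mul, smul_eq_mul]
  ring

omit [Fact p.Prime] in
theorem nrm_mdiff_famOf (X : ModularForm (Gamma0 p) k) (x : Option (ZMod p)) :
    MDiff (famOf p k (⇑X) x) := by
  unfold famOf
  rw [ModularForm.SL_slash]
  exact (ModularFormClass.holo X).slash k _

theorem nrm_exp_pow_eq_one {m : ℕ} (hm : p ∣ m) :
    Complex.exp (2 * Real.pi * Complex.I / p) ^ m = 1 := by
  obtain ⟨t, rfl⟩ := hm
  have hp : (p : ℂ) ≠ 0 := by exact_mod_cast (Fact.out : p.Prime).ne_zero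
  rw [pow_mul, ← Complex.exp_nat_mul, mul_div_cancel₀ _ hp, Complex.exp_two_pi_mul_I, one_pow]

theorem nrm_exp_pow_mem (R : Subring ℂ) (hζ : ∀ z : ℂ, z ^ p = 1 → z ∈ R) (m : ℕ) :
    Complex.exp (2 * Real.pi * Complex.I / p) ^ m ∈ R := by
  apply hζ
  rw [pow_right_comm, nrm_exp_pow_eq_one dvd_rfl, one_pow]

theorem nrm_coeff_famOf_some {X Y : ModularForm (Gamma0 p) k}
    (hXY : ∀ z w : ℍ, (w : ℂ) = (p : ℂ) * (z : ℂ) → (⇑X ∣[k] ModularGroup.S) w = Y z)
    (j : ZMod p) (n : ℕ) :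
    (qExpansion (p : ℝ) (famOf p k (⇑X) (some j))).coeff n =
      Complex.exp (2 * Real.pi * Complex.I / p) ^ (j.val * n) * (qExpansion 1 Y).coeff n := by
  have hpR : (0 : ℝ) < p := by exact_mod_cast (Fact.out : p.Prime).pos
  have h1 := UpperHalfPlane.qExpansion_coeff_unique
    (ContinuousMap.mk (famOf p k (⇑X) (some j)) (nrm_mdiff_famOf X _).continuous)
    (c := fun n : ℕ ↦ Complex.exp (2 * Real.pi * Complex.I / p) ^ (j.val * n) *
      (qExpansion 1 Y).coeff n) hpR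
    (nrm_analyticAt_of_hasSum hpR (nrm_mdiff_famOf X _) (nrm_hasSum_famOf_some hXY j))
    (nrm_hasSum_famOf_some hXY j) n
  exact h1.symm

/-- **Valence contradiction.** A form of weight `k < 12` on `Γ₀(p)` cannot be congruent modulo `ℓ`
to `G(q) = q + …` at `∞` and to `G(q) = G(t^p)` (`t = q^{1/p}`) at `0`.
Proof: apply `norm_sturm_false` with `h = p`, `ι = Option (ZMod p)`, the family `famOf p k X`,
`N` from `P1Family.exists_norm`, `I = Ideal.span {ℓ}`.
`qExpansion p X = Vp p A` (`UpperHalfPlane.qExpansion_coeff_nat_mul`),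
`(qExpansion p (X ∣ S T^j)).coeff n = ζ^(j n) * B.coeff n`, `ζ = exp (2 π i / p)`
(`qExpansion_coeff_unique`). -/
theorem TwoCusp.false_of_congr (h : TwoCusp p k A B) (hk : k < 12)
    (R : Subring ℂ) (ℓ : ℕ) (hℓ : ((ℓ : ℂ))⁻¹ ∉ R) (hζ : ∀ z : ℂ, z ^ p = 1 → z ∈ R)
    (G : PowerSeries ℂ) (hG : G ∈ seriesIn R)
    (hG0 : PowerSeries.coeff 0 G = 0) (hG1 : PowerSeries.coeff 1 G = 1)
    (hA : ∃ C ∈ seriesIn R, A = G + (ℓ : ℂ) • C)
    (hB : ∃ C ∈ seriesIn R, B = Vp p G + (ℓ : ℂ) • C) : False := by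
  obtain ⟨X, Y, hXA, hYB, hXY⟩ := h
  obtain ⟨CA, hCA, hA⟩ := hA
  obtain ⟨CB, hCB, hB⟩ := hB
  have hp0 : 0 < p := (Fact.out : p.Prime).pos
  have hpR : (0 : ℝ) < p := by exact_mod_cast hp0
  have hper1 : Function.Periodic (⇑X ∘ ofComplex) 1 :=
    SlashInvariantFormClass.periodic_comp_ofComplex X
      (CongruenceSubgroup.one_mem_strictPeriods_Gamma0 p)
  have hperp : Function.Periodic (⇑X ∘ ofComplex) (p : ℝ) := by
    have := hper1.nat_mul p
    simpa using this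
  have hfam := p1Family_famOf (k := k) (slash_Gamma0_eq X)
  have han : ∀ i, AnalyticAt ℂ (cuspFunction (p : ℝ) (famOf p k (⇑X) i)) 0 := by
    intro i
    rcases i with _ | j
    · rw [famOf_none]
      exact analyticAt_cuspFunction_zero hpR hperp (ModularFormClass.holo X)
        (ModularFormClass.bdd_at_infty X)
    · exact nrm_analyticAt_of_hasSum hpR (nrm_mdiff_famOf X _) (nrm_hasSum_famOf_some hXY j)
  have hbdd : ∀ i, IsBoundedAtImInfty (famOf p k (⇑X) i) := by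
    intro i
    rcases i with _ | j
    · rw [famOf_none]
      exact ModularFormClass.bdd_at_infty X
    · exact isBoundedAtImInfty_of_hasSum_qExpansion hpR (nrm_hasSum_famOf_some hXY j)
  obtain ⟨N, hN⟩ := hfam.exists_norm (nrm_mdiff_famOf X) hbdd
  -- the ideal
  have hmemI : ∀ c : ℂ, c ∈ R → ∃ r ∈ Ideal.span {((ℓ : ℕ) : R)}, (r : ℂ) = (ℓ : ℂ) * c := by
    intro c hc
    exact ⟨((ℓ : ℕ) : R) * ⟨c, hc⟩, Ideal.mul_mem_right _ _ (Ideal.subset_span rfl), by simp⟩
  have hI : Ideal.span {((ℓ : ℕ) : R)} ≠ ⊤ := by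
    intro htop
    rw [Ideal.eq_top_iff_one, Ideal.mem_span_singleton'] at htop
    obtain ⟨a, ha⟩ := htop
    have ha' : (a : ℂ) * (ℓ : ℂ) = 1 := by
      have := congrArg (Subtype.val) ha
      simpa using this
    apply hℓ
    rw [← eq_inv_of_mul_eq_one_left ha']
    exact a.2
  refine norm_sturm_false R (Ideal.span {((ℓ : ℕ) : R)}) hI N (famOf p k (⇑X)) hN p hp0 han G hG
    hG0 hG1 ?_ ?_
  · intro i n
    rcases i with _ | j
    · rw [famOf_none]
      have h1 := UpperHalfPlane.qExpansion_coeff_nat_mul (h := 1) one_pos (F := ⇑X) hper1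
        (ModularFormClass.holo X) (ModularFormClass.bdd_at_infty X) hp0 n
      rw [mul_one] at h1
      rw [h1, hXA, hA]
      split_ifs with hd
      · obtain ⟨r, hr, hr'⟩ := hmemI _ (hCA (n / p))
        refine ⟨r, hr, ?_⟩
        rw [hr']
        simp
      · exact ⟨0, Ideal.zero_mem _, by simp⟩
    · rw [nrm_coeff_famOf_some hXY j n, hYB, hB]
      simp only [map_add, coeff_Vp, PowerSeries.coeff_smul, smul_eq_mul]
      split_ifs with hd
      · obtain ⟨r, hr, hr'⟩ := hmemI _ (hCB n)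
        refine ⟨r, hr, ?_⟩
        rw [hr', nrm_exp_pow_eq_one (hd.mul_left _)]
        ring
      · obtain ⟨r, hr, hr'⟩ := hmemI _ (R.mul_mem (nrm_exp_pow_mem R hζ (j.val * n)) (hCB n))
        refine ⟨r, hr, ?_⟩
        rw [hr']
        ring
  · rw [Fintype.card_option, ZMod.card]
    push_cast
    have : (0 : ℤ) < (p : ℤ) + 1 := by positivity
    exact mul_lt_mul_of_pos_right hk this

end Fermat.Agent.S16
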