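import Fermat.Agent.S16.Core.Defs
import Fermat.Prelude.Thm_CongruenceSubgroup_one_mem_strictPeriods_Gamma0

/-!
# S16 core, package PKG-1: algebraic closure properties of `TwoCusp`
-/

set_option autoImplicit false

namespace Fermat.Agent.S16

open UpperHalfPlane ModularForm CongruenceSubgroup
open scoped MatrixGroups ModularForm Manifold

variable {p : ℕ} {k k' : ℤ} {A B A' B' : PowerSeries ℂ}

theorem TwoCusp.zero : TwoCusp p k 0 0 := by
  refine ⟨0, 0, ?_, ?_, ?_⟩
  · simpa using qExpansion_zero 1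
  · simpa using qExpansion_zero 1
  · intro z w _
    simp

theorem TwoCusp.add (h : TwoCusp p k A B) (h' : TwoCusp p k A' B') :
    TwoCusp p k (A + A') (B + B') := by
  obtain ⟨X, Y, rfl, rfl, hXY⟩ := h
  obtain ⟨X', Y', rfl, rfl, hXY'⟩ := h'
  refine ⟨X + X', Y + Y', ?_, ?_, ?_⟩
  · exact ModularForm.qExpansion_add one_pos (one_mem_strictPeriods_Gamma0 p) X X'
  · exact ModularForm.qExpansion_add one_pos (one_mem_strictPeriods_Gamma0 p) Y Y'
  · intro z w hw
    rw [FunLike.coe_add, SlashAction.add_slash, Pi.add_apply, hXY z w hw, hXY' z w hw]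
    rfl

theorem TwoCusp.smul (c : ℂ) (h : TwoCusp p k A B) : TwoCusp p k (c • A) (c • B) := by
  obtain ⟨X, Y, rfl, rfl, hXY⟩ := h
  refine ⟨c • X, c • Y, ?_, ?_, ?_⟩
  · exact ModularForm.qExpansion_smul one_pos (one_mem_strictPeriods_Gamma0 p) c X
  · exact ModularForm.qExpansion_smul one_pos (one_mem_strictPeriods_Gamma0 p) c Y
  · intro z w hw
    rw [FunLike.coe_smul, ModularForm.SL_smul_slash, Pi.smul_apply, hXY z w hw]
    rfl

theorem TwoCusp.neg (h : TwoCusp p k A B) : TwoCusp p k (-A) (-B) := by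
  simpa using h.smul (-1)

theorem TwoCusp.sub (h : TwoCusp p k A B) (h' : TwoCusp p k A' B') :
    TwoCusp p k (A - A') (B - B') := by
  simpa [sub_eq_add_neg] using h.add h'.neg

/-- products; the weight is a free variable to avoid casts. -/
theorem TwoCusp.mul {k'' : ℤ} (h : TwoCusp p k A B) (h' : TwoCusp p k' A' B')
    (hk : k + k' = k'') : TwoCusp p k'' (A * A') (B * B') := by
  obtain ⟨X, Y, rfl, rfl, hXY⟩ := h
  obtain ⟨X', Y', rfl, rfl, hXY'⟩ := h'
  subst hk
  refine ⟨X.mul X', Y.mul Y', ?_, ?_, ?_⟩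
  · exact ModularForm.qExpansion_mul one_pos (one_mem_strictPeriods_Gamma0 p) X X'
  · exact ModularForm.qExpansion_mul one_pos (one_mem_strictPeriods_Gamma0 p) Y Y'
  · intro z w hw
    rw [ModularForm.coe_mul, ModularForm.mul_slash_SL2, Pi.mul_apply, hXY z w hw, hXY' z w hw]
    rfl

/-- `B` is determined by `A` (this needs `p ≠ 0`: for `p = 0` the last condition is void). -/
theorem TwoCusp.unique [Fact p.Prime] (h : TwoCusp p k A B) (h' : TwoCusp p k A B') : B = B' := by
  obtain ⟨X, Y, rfl, rfl, hXY⟩ := h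
  obtain ⟨X', Y', hA, rfl, hXY'⟩ := h'
  have hp : 0 < p := (Fact.out : p.Prime).pos
  have hX : X = X' := by
    have h1 : qExpansion 1 (X - X') = 0 := by
      have := ModularForm.qExpansion_sub one_pos (one_mem_strictPeriods_Gamma0 p) X X'
      rw [hA, sub_self] at this
      exact this
    have h2 := (ModularForm.qExpansion_eq_zero_iff one_pos (one_mem_strictPeriods_Gamma0 p)
      (X - X')).mp h1
    exact sub_eq_zero.mp h2
  subst hX
  have hY : Y = Y' := by
    ext z
    have hpos : 0 < ((p : ℂ) * (z : ℂ)).im := by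
      have : ((p : ℂ) * (z : ℂ)).im = p * z.im := by simp
      rw [this]
      exact mul_pos (by exact_mod_cast hp) z.im_pos
    rw [← hXY z ⟨_, hpos⟩ rfl, ← hXY' z ⟨_, hpos⟩ rfl]
  rw [hY]

end Fermat.Agent.S16
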