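import Fermat.Agent.S16.Core.Fricke

/-!
# S16 core, package PKG-2b: cusp forms and level one forms in terms of `TwoCusp`
-/

set_option autoImplicit false

namespace Fermat.Agent.S16

open UpperHalfPlane ModularForm CongruenceSubgroup
open scoped MatrixGroups ModularForm Manifold

variable {p : ℕ} [Fact p.Prime] {k : ℤ} {A B : PowerSeries ℂ}

theorem TwoCusp.exists_of_cuspForm (f : CuspForm (Gamma0 p) k) :
    ∃ B, TwoCusp p k (qExpansion 1 f) B :=
  TwoCusp.exists_of_modularForm (CuspForm.toModularFormₗ f)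

/-- a modular form on `Γ₀(p)` whose constant coefficient vanishes is zero at `i∞`. -/
lemma isZeroAtImInfty_of_coeff_zero_Gamma0 (X : ModularForm (Gamma0 p) k)
    (h : PowerSeries.coeff 0 (qExpansion 1 X) = 0) : IsZeroAtImInfty X := by
  refine isZeroAtImInfty_of_valueAtInfty_eq_zero X ?_
  rwa [← qExpansion_coeff_zero one_pos
      (ModularFormClass.analyticAt_cuspFunction_zero X one_pos (one_mem_strictPeriods_Gamma0 p))
      (SlashInvariantFormClass.periodic_comp_ofComplex X (one_mem_strictPeriods_Gamma0 p))]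

/-- the point `z / p`. -/
noncomputable def cuspDivP (p : ℕ) [Fact p.Prime] (z : ℍ) : ℍ :=
  ⟨(z : ℂ) / (p : ℂ), by
    have hp : (0 : ℝ) < p := by exact_mod_cast (Fact.out : p.Prime).pos
    have : ((z : ℂ) / (p : ℂ)).im = z.im / p := by
      rw [Complex.div_natCast_im]; rfl
    rw [this]
    exact div_pos z.im_pos hp⟩

lemma coe_cuspDivP (z : ℍ) : ((cuspDivP p z : ℍ) : ℂ) = (z : ℂ) / (p : ℂ) := rfl

lemma im_cuspDivP (z : ℍ) : (cuspDivP p z).im = z.im / p := by
  change ((z : ℂ) / (p : ℂ)).im = _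
  rw [Complex.div_natCast_im]; rfl

/-- A form vanishing at both cusps is a cusp form. -/
theorem TwoCusp.exists_cuspForm (h : TwoCusp p k A B) (hA : PowerSeries.coeff 0 A = 0)
    (hB : PowerSeries.coeff 0 B = 0) : ∃ f : CuspForm (Gamma0 p) k, qExpansion 1 f = A := by
  obtain ⟨X, Y, rfl, rfl, hXY⟩ := h
  have hp : (0 : ℝ) < p := by exact_mod_cast (Fact.out : p.Prime).pos
  have hpC : (p : ℂ) ≠ 0 := by exact_mod_cast (Fact.out : p.Prime).ne_zero
  have hX := isZeroAtImInfty_of_coeff_zero_Gamma0 X hA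
  have hY := isZeroAtImInfty_of_coeff_zero_Gamma0 Y hB
  have hS : IsZeroAtImInfty (⇑X ∣[k] ModularGroup.S) := by
    rw [isZeroAtImInfty_iff] at hY ⊢
    intro ε hε
    obtain ⟨C, hC⟩ := hY ε hε
    refine ⟨C * p, fun z hz => ?_⟩
    rw [hXY (cuspDivP p z) z (by rw [coe_cuspDivP]; field_simp)]
    refine hC _ ?_
    rw [im_cuspDivP, le_div_iff₀ hp]
    exact hz
  obtain ⟨F, hF⟩ := exists_cuspForm_of_invariant (slash_Gamma0_eq X) X.holo' hX hS
  exact ⟨F, by rw [hF]⟩

/-- restriction of a level one form to `Γ₀(p)`. -/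
lemma exists_restrict_levelOne (G : ModularForm 𝒮ℒ k) : ∃ X : ModularForm (Gamma0 p) k, ⇑X = ⇑G := by
  have hinv : ∀ γ : SL(2, ℤ), ⇑G ∣[k] γ = ⇑G := fun γ =>
    SlashInvariantFormClass.slash_action_eq G _ ⟨γ, rfl⟩
  refine exists_modularForm_of_invariant (fun γ _ => hinv γ) G.holo'
    (ModularFormClass.bdd_at_infty G) ?_
  rw [hinv]
  exact ModularFormClass.bdd_at_infty G

/-- A level one form `G`, seen on `Γ₀(p)`: `(G ∣ S)(p z) = G (p z)`. -/
theorem TwoCusp.of_levelOne (G : ModularForm 𝒮ℒ k) :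
    TwoCusp p k (qExpansion 1 G) (Vp p (qExpansion 1 G)) := by
  have hinv : ∀ γ : SL(2, ℤ), ⇑G ∣[k] γ = ⇑G := fun γ =>
    SlashInvariantFormClass.slash_action_eq G _ ⟨γ, rfl⟩
  have hpos : 0 < p := (Fact.out : p.Prime).pos
  obtain ⟨X, hX⟩ := exists_restrict_levelOne (p := p) G
  obtain ⟨Y, hY⟩ := exists_fricke X
  refine ⟨X, Y, by rw [hX], ?_, hY⟩
  ext n
  rw [coeff_Vp]
  refine (ModularFormClass.qExpansion_coeff_unique (c := fun n => if p ∣ n then
    PowerSeries.coeff (n / p) (qExpansion 1 G) else 0) one_pos (one_mem_strictPeriods_Gamma0 p)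
    (f := Y) (fun τ => ?_) n).symm
  -- the point `p τ`
  have hp : (0 : ℝ) < p := by exact_mod_cast hpos
  let w : ℍ := ⟨(p : ℂ) * (τ : ℂ), by
    have : ((p : ℂ) * (τ : ℂ)).im = p * τ.im := by
      simp
    rw [this]; exact mul_pos hp τ.im_pos⟩
  have hw : (w : ℂ) = (p : ℂ) * (τ : ℂ) := rfl
  rw [← hY τ w hw, hX, hinv]
  have hsum := ModularForm.hasSum_qExpansion (f := G) one_pos one_mem_strictPeriods_SL w
  have hinj : Function.Injective (fun m : ℕ => p * m) := fun a b hab =>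
    Nat.eq_of_mul_eq_mul_left hpos hab
  rw [← hinj.hasSum_iff]
  · convert hsum using 2 with m
    simp only [Function.comp_apply, dvd_mul_right, if_true, Nat.mul_div_cancel_left _ hpos,
      smul_eq_mul]
    congr 1
    rw [pow_mul, hw]
    congr 1
    rw [Function.Periodic.qParam, Function.Periodic.qParam, ← Complex.exp_nat_mul]
    congr 1
    ring
  · intro n hn
    have : ¬ p ∣ n := fun ⟨m, hm⟩ => hn ⟨m, hm.symm⟩
    simp [this]

end Fermat.Agent.S16
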