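import Mathlib
import Fermat.Agent.S23.Defs

/-!
# S16 core: the predicate `TwoCusp`

`TwoCusp p k A B` : there is `X ∈ M_k(Γ₀(p))` whose `q`-expansion at `∞` is `A` and such that
`(X ∣[k] S)(z) = ∑ B_n e(n z / p)`, the latter being encoded by a second form `Y ∈ M_k(Γ₀(p))`
with `q`-expansion `B` and `(X ∣[k] S)(p z) = Y z`.
-/

set_option autoImplicit false

namespace Fermat.Agent.S16

open UpperHalfPlane ModularForm CongruenceSubgroup
open scoped MatrixGroups ModularForm Manifold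

/-- `U_p` on power series: `∑ a_n q^n ↦ ∑ a_{pn} q^n`. -/
noncomputable def Up (p : ℕ) (A : PowerSeries ℂ) : PowerSeries ℂ :=
  PowerSeries.mk fun n => PowerSeries.coeff (p * n) A

/-- `V_p` on power series: `∑ a_n q^n ↦ ∑ a_n q^{pn}`. -/
noncomputable def Vp (p : ℕ) (A : PowerSeries ℂ) : PowerSeries ℂ :=
  PowerSeries.mk fun n => if p ∣ n then PowerSeries.coeff (n / p) A else 0

@[simp] lemma coeff_Up (p : ℕ) (A : PowerSeries ℂ) (n : ℕ) :
    PowerSeries.coeff n (Up p A) = PowerSeries.coeff (p * n) A := PowerSeries.coeff_mk _ _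

lemma coeff_Vp (p : ℕ) (A : PowerSeries ℂ) (n : ℕ) :
    PowerSeries.coeff n (Vp p A) = if p ∣ n then PowerSeries.coeff (n / p) A else 0 :=
  PowerSeries.coeff_mk _ _

/-- See the module docstring. -/
def TwoCusp (p : ℕ) (k : ℤ) (A B : PowerSeries ℂ) : Prop :=
  ∃ X Y : ModularForm (Gamma0 p) k, qExpansion 1 X = A ∧ qExpansion 1 Y = B ∧
    ∀ z w : ℍ, (w : ℂ) = (p : ℂ) * (z : ℂ) → (⇑X ∣[k] ModularGroup.S) w = Y z

/-- power series with coefficients in a subring `R ⊆ ℂ`. -/
def seriesIn (R : Subring ℂ) : Subring (PowerSeries ℂ) where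
  carrier := {A | ∀ n, PowerSeries.coeff n A ∈ R}
  zero_mem' := fun n => by simp
  one_mem' := fun n => by
    rw [PowerSeries.coeff_one]; split_ifs
    · exact R.one_mem
    · exact R.zero_mem
  add_mem' := fun {a b} ha hb n => by rw [map_add]; exact R.add_mem (ha n) (hb n)
  neg_mem' := fun {a} ha n => by rw [map_neg]; exact R.neg_mem (ha n)
  mul_mem' := fun {a b} ha hb n => by
    rw [PowerSeries.coeff_mul]
    exact R.sum_mem fun x _ => R.mul_mem (ha _) (hb _)

lemma mem_seriesIn {R : Subring ℂ} {A : PowerSeries ℂ} :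
    A ∈ seriesIn R ↔ ∀ n, PowerSeries.coeff n A ∈ R := Iff.rfl

end Fermat.Agent.S16
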