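import Fermat.Agent.S16.Core.Defs
import Fermat.Agent.S16.P1Family
import Fermat.Prelude.Def_ModularForm_HeckeOperator
import Fermat.Prelude.Thm_CongruenceSubgroup_one_mem_strictPeriods_Gamma0

/-!
# S16 core, package PKG-2: the Fricke involution

For `X ∈ M_k(Γ₀(p))` the function `Y z := (X ∣[k] S) (p z)` is again in `M_k(Γ₀(p))`
(`Y = p^(1-k) • X ∣[k] W`, `W = !![0,-1;p,0] = S * diag(p,1)`, and `W γ W⁻¹ ∈ Γ₀(p)` for
`γ ∈ Γ₀(p)`), and `(Y ∣[k] S)(p z) = (-p)^(-k) X z`.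
-/

set_option autoImplicit false
set_option linter.unusedSectionVars false

namespace Fermat.Agent.S16
open UpperHalfPlane ModularForm CongruenceSubgroup Matrix.SpecialLinearGroup
open scoped MatrixGroups ModularForm Manifold
variable {p : ℕ} [Fact p.Prime] {k : ℤ} {A B : PowerSeries ℂ}

lemma mapGL_val_eq (γ : SL(2, ℤ)) :
    ((mapGL ℝ γ : GL (Fin 2) ℝ) : Matrix (Fin 2) (Fin 2) ℝ) =
      !![((γ 0 0 : ℤ) : ℝ), ((γ 0 1 : ℤ) : ℝ); ((γ 1 0 : ℤ) : ℝ), ((γ 1 1 : ℤ) : ℝ)] := by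
  rw [mapGL_coe_matrix]
  ext i j
  fin_cases i <;> fin_cases j <;> simp

/-- the conjugate `W γ W⁻¹` of `γ ∈ Γ₀(p)`. -/
lemma exists_fricke_conj {γ : SL(2, ℤ)} (hγ : γ ∈ Gamma0 p) :
    ∃ γ' ∈ Gamma0 p, (mapGL ℝ ModularGroup.S) * heckeDiagMatrix p * (mapGL ℝ γ) =
      (mapGL ℝ γ') * ((mapGL ℝ ModularGroup.S) * heckeDiagMatrix p) := by
  have hp0 : p ≠ 0 := (Fact.out : p.Prime).ne_zero
  rw [Gamma0_mem, ZMod.intCast_zmod_eq_zero_iff_dvd] at hγ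
  obtain ⟨c', hc'⟩ := hγ
  have hdet := Matrix.det_fin_two γ.1
  rw [γ.2] at hdet
  have hd : (!![γ 1 1, -c'; -(p : ℤ) * γ 0 1, γ 0 0] : Matrix (Fin 2) (Fin 2) ℤ).det = 1 := by
    rw [Matrix.det_fin_two_of]
    have : γ.1 1 0 = (p : ℤ) * c' := hc'
    rw [this] at hdet
    linear_combination -hdet
  let γ' : SL(2, ℤ) := ⟨!![γ 1 1, -c'; -(p : ℤ) * γ 0 1, γ 0 0], hd⟩
  have e00 : γ' 0 0 = γ 1 1 := rfl
  have e01 : γ' 0 1 = -c' := rfl
  have e10 : γ' 1 0 = -(p : ℤ) * γ 0 1 := rfl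
  have e11 : γ' 1 1 = γ 0 0 := rfl
  refine ⟨γ', ?_, ?_⟩
  · rw [Gamma0_mem, e10]
    simp
  · apply Units.ext
    simp only [Units.val_mul, mapGL_val_eq, val_heckeDiagMatrix hp0, e00, e01, e10, e11, hc',
      ModularGroup.coe_S]
    ext i j
    fin_cases i <;> fin_cases j <;> simp [Matrix.mul_apply, Fin.sum_univ_two, mul_comm]

lemma SL_slash_mapGL (k : ℤ) (f : ℍ → ℂ) (γ : SL(2, ℤ)) : f ∣[k] γ = f ∣[k] (mapGL ℝ γ) := rfl

/-- the function `z ↦ (f ∣[k] S)(p z)`. -/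
noncomputable def frickeFun (p : ℕ) (k : ℤ) (f : ℍ → ℂ) : ℍ → ℂ :=
  ((p : ℂ) ^ (1 - k)) • (f ∣[k] ((mapGL ℝ ModularGroup.S) * heckeDiagMatrix p))

lemma frickeFun_apply (f : ℍ → ℂ) (z w : ℍ) (h : (w : ℂ) = (p : ℂ) * (z : ℂ)) :
    frickeFun p k f z = (f ∣[k] ModularGroup.S) w := by
  have hp0 : p ≠ 0 := (Fact.out : p.Prime).ne_zero
  have hpc : (p : ℂ) ≠ 0 := by exact_mod_cast hp0
  have hw : heckeDiagMatrix p • z = w := by
    apply UpperHalfPlane.ext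
    rw [coe_heckeDiagMatrix_smul hp0, h]
  rw [frickeFun, Pi.smul_apply, SlashAction.slash_mul, slash_heckeDiagMatrix_apply k hp0, hw,
    smul_eq_mul, ← mul_assoc, ← zpow_add₀ hpc, SL_slash_mapGL]
  simp

lemma frickeFun_slash_Gamma0 {f : ℍ → ℂ} (hf : ∀ γ ∈ Gamma0 p, f ∣[k] γ = f) :
    ∀ γ ∈ Gamma0 p, frickeFun p k f ∣[k] γ = frickeFun p k f := by
  intro γ hγ
  obtain ⟨γ', hγ', h⟩ := exists_fricke_conj hγ
  rw [frickeFun, SL_smul_slash, SL_slash_mapGL, ← SlashAction.slash_mul, h,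
    SlashAction.slash_mul, ← SL_slash_mapGL, hf γ' hγ']

lemma frickeFun_mdiff {f : ℍ → ℂ} (hf : MDiff f) : MDiff (frickeFun p k f) :=
  (hf.slash k _).const_smul _

lemma frickeFun_bdd {f : ℍ → ℂ} (hf : IsBoundedAtImInfty (f ∣[k] ModularGroup.S)) :
    IsBoundedAtImInfty (frickeFun p k f) := by
  have hp0 : p ≠ 0 := (Fact.out : p.Prime).ne_zero
  rw [frickeFun, SlashAction.slash_mul]
  have := IsBoundedAtImInfty.slash (g := heckeDiagMatrix p) k (by simp [val_heckeDiagMatrix hp0]) hf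
  exact this.const_smul_left _

lemma frickeFun_slash_S_bdd {f : ℍ → ℂ} (hf : IsBoundedAtImInfty f) :
    IsBoundedAtImInfty (frickeFun p k f ∣[k] ModularGroup.S) := by
  have hp0 : p ≠ 0 := (Fact.out : p.Prime).ne_zero
  rw [frickeFun, SL_smul_slash, SL_slash_mapGL, ← SlashAction.slash_mul]
  have := IsBoundedAtImInfty.slash
    (g := (mapGL ℝ ModularGroup.S) * heckeDiagMatrix p * (mapGL ℝ ModularGroup.S)) k (by
      simp [Units.val_mul, val_heckeDiagMatrix hp0, Matrix.mul_apply,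
        Fin.sum_univ_two, ModularGroup.coe_S]) hf
  exact this.const_smul_left _

/-- the Fricke transform of `X`. -/
theorem exists_fricke (X : ModularForm (Gamma0 p) k) :
    ∃ Y : ModularForm (Gamma0 p) k,
      ∀ z w : ℍ, (w : ℂ) = (p : ℂ) * (z : ℂ) → (⇑X ∣[k] ModularGroup.S) w = Y z := by
  obtain ⟨Y, hY⟩ := exists_modularForm_of_invariant (frickeFun_slash_Gamma0 (slash_Gamma0_eq X))
    (frickeFun_mdiff (ModularFormClass.holo X))
    (frickeFun_bdd (ModularFormClass.bdd_at_infty_slash X _))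
    (frickeFun_slash_S_bdd (ModularFormClass.bdd_at_infty X))
  exact ⟨Y, fun z w h => by rw [hY, frickeFun_apply _ z w h]⟩

theorem TwoCusp.exists_of_modularForm (X : ModularForm (Gamma0 p) k) :
    ∃ B, TwoCusp p k (qExpansion 1 X) B := by
  obtain ⟨Y, hY⟩ := exists_fricke X
  exact ⟨_, X, Y, rfl, rfl, hY⟩

lemma coe_S_smul (z : ℍ) : ((ModularGroup.S • z : ℍ) : ℂ) = (-(z : ℂ))⁻¹ := by
  rw [modular_S_smul, UpperHalfPlane.coe_mk]

lemma slash_S_apply (f : ℍ → ℂ) (w : ℍ) :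
    (f ∣[k] ModularGroup.S) w = f (ModularGroup.S • w) * (w : ℂ) ^ (-k) := by
  rw [ModularForm.SL_slash_apply, ModularGroup.denom_S]

theorem TwoCusp.swap (hk : Even k) (h : TwoCusp p k A B) :
    TwoCusp p k B (((p : ℂ) ^ (-k)) • A) := by
  obtain ⟨X, Y, rfl, rfl, hXY⟩ := h
  have hp0 : p ≠ 0 := (Fact.out : p.Prime).ne_zero
  have hpc : (p : ℂ) ≠ 0 := by exact_mod_cast hp0
  refine ⟨Y, ((p : ℂ) ^ (-k)) • X, rfl, ?_, ?_⟩
  · exact ModularForm.qExpansion_smul one_pos (one_mem_strictPeriods_Gamma0 p) _ X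
  · intro z w hw
    have hz0 : (z : ℂ) ≠ 0 := ne_zero z
    have h1 : ((ModularGroup.S • z : ℍ) : ℂ) = (p : ℂ) * ((ModularGroup.S • w : ℍ) : ℂ) := by
      rw [coe_S_smul, coe_S_smul, hw]
      field_simp
    have h2 := hXY _ _ h1
    rw [slash_S_apply, ← h2, slash_S_apply]
    have h3 : ModularGroup.S • (ModularGroup.S • z) = z := by
      apply UpperHalfPlane.ext
      rw [coe_S_smul, coe_S_smul]
      simp
    rw [h3, coe_S_smul, hw]
    show X z * _ * _ = (p : ℂ) ^ (-k) * X z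
    rw [mul_assoc, ← mul_zpow]
    have : (-(z : ℂ))⁻¹ * ((p : ℂ) * z) = - (p : ℂ) := by field_simp
    rw [this, hk.neg.neg_zpow, mul_comm]

end Fermat.Agent.S16
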