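import Fermat.Agent.S16.Core.Defs

/-!
# S16 core, package PKG-5: a subring of `ℂ` in which one can reduce modulo `ℓ`
-/

set_option autoImplicit false

namespace Fermat.Agent.S16

/-- There is a subring `R ⊆ ℂ` (a valuation ring above `ℓ`,
`Ideal.image_subset_nonunits_valuationSubring`) in which `ℓ` is not invertible, every integer prime
to `ℓ` is invertible, and which contains all roots of unity. -/
theorem exists_good_subring (ℓ : ℕ) (hℓ : ℓ.Prime) :
    ∃ R : Subring ℂ, ((ℓ : ℂ))⁻¹ ∉ R ∧ (∀ m : ℕ, ¬ ℓ ∣ m → ((m : ℂ))⁻¹ ∈ R) ∧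
      (∀ (n : ℕ) (z : ℂ), 0 < n → z ^ n = 1 → z ∈ R) := by
  set A : Subring ℂ := (Int.castRingHom ℂ).range with hA
  have hmem : ∀ n : ℤ, (n : ℂ) ∈ A := fun n => ⟨n, rfl⟩
  set I : Ideal A := Ideal.span {⟨(ℓ : ℂ), by simpa using hmem (ℓ : ℤ)⟩} with hI
  have hItop : I ≠ ⊤ := by
    intro h
    rw [Ideal.eq_top_iff_one, hI, Ideal.mem_span_singleton'] at h
    obtain ⟨⟨a, n, rfl⟩, ha⟩ := h
    have h1 : ((n : ℤ) : ℂ) * (ℓ : ℂ) = 1 := congrArg Subtype.val ha
    have h2 : n * (ℓ : ℤ) = 1 := by exact_mod_cast h1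
    have h3 : (ℓ : ℤ) ∣ 1 := Dvd.intro_left _ h2
    have h4 : ℓ ∣ 1 := by exact_mod_cast h3
    exact hℓ.one_lt.ne' (Nat.dvd_one.mp h4)
  obtain ⟨V, hAV, hIV⟩ := Ideal.image_subset_nonunits_valuationSubring I hItop
  have hint : ∀ n : ℤ, (n : ℂ) ∈ V := fun n => hAV (hmem n)
  have hℓV : (ℓ : ℂ) ∈ V.nonunits :=
    hIV ⟨⟨(ℓ : ℂ), by simpa using hmem (ℓ : ℤ)⟩, Ideal.subset_span rfl, rfl⟩
  have hvℓ : V.valuation (ℓ : ℂ) < 1 := V.mem_nonunits_iff.mp hℓV
  have hℓ0 : (ℓ : ℂ) ≠ 0 := by exact_mod_cast hℓ.ne_zero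
  refine ⟨V.toSubring, ?_, ?_, ?_⟩
  · intro h
    have h1 : V.valuation ((ℓ : ℂ)⁻¹) ≤ 1 := (V.valuation_le_one_iff _).mpr h
    have h2 : V.valuation ((ℓ : ℂ) * (ℓ : ℂ)⁻¹) < 1 := by
      rw [map_mul]
      exact mul_lt_one_of_lt_of_le hvℓ h1
    rw [mul_inv_cancel₀ hℓ0, map_one] at h2
    exact lt_irrefl _ h2
  · intro m hm
    have hcop : IsCoprime (m : ℤ) (ℓ : ℤ) := by
      rw [Nat.isCoprime_iff_coprime]
      exact ((Nat.Prime.coprime_iff_not_dvd hℓ).mpr hm).symm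
    obtain ⟨a, b, hab⟩ := hcop
    have hab' : (a : ℂ) * (m : ℂ) + (b : ℂ) * (ℓ : ℂ) = 1 := by exact_mod_cast hab
    have hm0 : (m : ℂ) ≠ 0 := by
      intro h0
      have : m = 0 := by exact_mod_cast h0
      exact hm (this ▸ dvd_zero _)
    rcases V.mem_or_inv_mem (m : ℂ) with _ | h
    swap
    · exact h
    by_contra hcon
    -- then `m` is a nonunit
    have hvm : V.valuation (m : ℂ) < 1 := by
      by_contra hge
      rw [not_lt] at hge
      apply hcon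
      show (m : ℂ)⁻¹ ∈ V
      rw [← V.valuation_le_one_iff, map_inv₀]
      exact inv_le_one_of_one_le₀ hge
    have h1 : V.valuation ((a : ℂ) * (m : ℂ)) < 1 := by
      rw [map_mul]
      exact Right.mul_lt_one_of_le_of_lt ((V.valuation_le_one_iff _).mpr (hint a)) hvm
    have h2 : V.valuation ((b : ℂ) * (ℓ : ℂ)) < 1 := by
      rw [map_mul]
      exact Right.mul_lt_one_of_le_of_lt ((V.valuation_le_one_iff _).mpr (hint b)) hvℓ
    have h3 := Valuation.map_add_lt _ h1 h2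
    rw [hab', map_one] at h3
    exact lt_irrefl _ h3
  · intro n z hn hz
    rcases V.mem_or_inv_mem z with h | h
    · exact h
    · have hz0 : z ≠ 0 := by
        rintro rfl
        rw [zero_pow hn.ne'] at hz
        exact zero_ne_one hz
      have : z = (z⁻¹) ^ (n - 1) := by
        obtain ⟨k, rfl⟩ : ∃ k, n = k + 1 := ⟨n - 1, by omega⟩
        rw [Nat.add_sub_cancel, inv_pow]
        rw [pow_succ] at hz
        field_simp
        rw [mul_comm]
        exact hz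
      show z ∈ V
      rw [this]
      exact pow_mem h _

lemma intSeries_le_seriesIn (R : Subring ℂ) : Fermat.Agent.S23.intSeries ≤ seriesIn R := by
  intro A hA n
  obtain ⟨m, hm⟩ := Fermat.Agent.S23.mem_intSeries_iff.mp hA n
  rw [hm]
  exact intCast_mem R m

lemma smul_mem_seriesIn {R : Subring ℂ} {c : ℂ} (hc : c ∈ R) {A : PowerSeries ℂ}
    (hA : A ∈ seriesIn R) : c • A ∈ seriesIn R := by
  intro n
  rw [PowerSeries.coeff_smul, smul_eq_mul]
  exact R.mul_mem hc (hA n)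

lemma C_mem_seriesIn {R : Subring ℂ} {c : ℂ} (hc : c ∈ R) : PowerSeries.C c ∈ seriesIn R := by
  intro n
  rw [PowerSeries.coeff_C]
  split_ifs
  · exact hc
  · exact R.zero_mem

lemma Up_mem_seriesIn {R : Subring ℂ} (p : ℕ) {A : PowerSeries ℂ}
    (hA : A ∈ seriesIn R) : Up p A ∈ seriesIn R := by
  intro n
  rw [coeff_Up]
  exact hA _

lemma Vp_mem_seriesIn {R : Subring ℂ} (p : ℕ) {A : PowerSeries ℂ}
    (hA : A ∈ seriesIn R) : Vp p A ∈ seriesIn R := by
  intro n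
  rw [coeff_Vp]
  split_ifs
  · exact hA _
  · exact R.zero_mem

lemma Up_mem_intSeries (p : ℕ) {A : PowerSeries ℂ}
    (hA : A ∈ Fermat.Agent.S23.intSeries) : Up p A ∈ Fermat.Agent.S23.intSeries := by
  rw [Fermat.Agent.S23.mem_intSeries_iff] at hA ⊢
  intro n
  rw [coeff_Up]
  exact hA _

lemma Vp_eq_expand {p : ℕ} (hp : 0 < p) (A : PowerSeries ℂ) :
    Vp p A = PowerSeries.expand p hp.ne' A := by
  ext n
  rw [coeff_Vp]
  split_ifs with h
  · obtain ⟨m, rfl⟩ := h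
    rw [Nat.mul_div_cancel_left _ hp, PowerSeries.coeff_expand_mul]
  · rw [PowerSeries.coeff_expand_of_not_dvd _ _ _ h]

/-- `V_p` is multiplicative. -/
lemma Vp_mul {p : ℕ} (hp : 0 < p) (A B : PowerSeries ℂ) : Vp p (A * B) = Vp p A * Vp p B := by
  rw [Vp_eq_expand hp, Vp_eq_expand hp, Vp_eq_expand hp, map_mul]

lemma Vp_add (p : ℕ) (A B : PowerSeries ℂ) : Vp p (A + B) = Vp p A + Vp p B := by
  ext n
  simp only [coeff_Vp, map_add]
  split_ifs <;> simp

lemma Vp_smul (p : ℕ) (c : ℂ) (A : PowerSeries ℂ) : Vp p (c • A) = c • Vp p A := by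
  ext n
  simp only [coeff_Vp, PowerSeries.coeff_smul]
  split_ifs <;> simp

lemma Vp_one {p : ℕ} (hp : 0 < p) : Vp p 1 = 1 := by
  ext n
  simp only [coeff_Vp, PowerSeries.coeff_one]
  by_cases hn : n = 0
  · simp [hn]
  · rw [if_neg hn]
    split_ifs with h1 h2
    · exfalso
      obtain ⟨m, rfl⟩ := h1
      rw [Nat.mul_div_cancel_left _ hp] at h2
      simp [h2] at hn
    · rfl
    · rfl

lemma Up_add (p : ℕ) (A B : PowerSeries ℂ) : Up p (A + B) = Up p A + Up p B := by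
  ext n
  simp

lemma Up_smul (p : ℕ) (c : ℂ) (A : PowerSeries ℂ) : Up p (c • A) = c • Up p A := by
  ext n
  simp

/-- (false for `p = 0`, hence the instance argument) -/
lemma Up_C (p : ℕ) [Fact p.Prime] (c : ℂ) : Up p (PowerSeries.C c) = PowerSeries.C c := by
  have hp : p ≠ 0 := (Fact.out : p.Prime).ne_zero
  ext n
  rw [coeff_Up, PowerSeries.coeff_C, PowerSeries.coeff_C]
  simp [hp]

end Fermat.Agent.S16
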