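import Fermat.Agent.S16.Core.Fricke
import Fermat.Agent.S16.SturmModLambda
import Fermat.Prelude.Thm_ModularFormClass_qCoeff_heckeU

/-!
# S16 core, package PKG-3: the trace from `Γ₀(p)` to level one
-/

set_option autoImplicit false

namespace Fermat.Agent.S16

open UpperHalfPlane ModularForm CongruenceSubgroup
open scoped MatrixGroups ModularForm Manifold

variable {p : ℕ} [Fact p.Prime] {k : ℤ} {A B : PowerSeries ℂ}

/-- the sum of the finite part of the family `famOf` is `p U_p Y`. -/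
lemma sum_famOf_some_eq (X Y : ModularForm (Gamma0 p) k)
    (hXY : ∀ z w : ℍ, (w : ℂ) = (p : ℂ) * (z : ℂ) → (⇑X ∣[k] ModularGroup.S) w = Y z) (z : ℍ) :
    ∑ j : ZMod p, famOf p k (⇑X) (some j) z = (p : ℂ) * heckeU k p (⇑Y) z := by
  have hp0 : p ≠ 0 := (Fact.out : p.Prime).ne_zero
  have hpC : (p : ℂ) ≠ 0 := by exact_mod_cast hp0
  have : NeZero p := ⟨hp0⟩
  rw [heckeU_apply k hp0, ← mul_assoc, mul_inv_cancel₀ hpC, one_mul]
  have key : ∀ j : ZMod p, famOf p k (⇑X) (some j) z = Y (heckeMatrix p j.val • z) := by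
    intro j
    rw [famOf_some_apply]
    apply hXY
    rw [coe_heckeMatrix_smul hp0]
    simp only [UpperHalfPlane.coe_vadd]
    push_cast
    field_simp
    ring
  simp_rw [key]
  refine Finset.sum_bij (fun j _ => j.val) (fun j _ => Finset.mem_range.mpr (ZMod.val_lt j))
    (fun a _ b _ hab => ZMod.val_injective p hab)
    (fun n hn => ⟨(n : ZMod p), Finset.mem_univ _, ZMod.val_cast_of_lt (Finset.mem_range.mp hn)⟩)
    (fun j _ => rfl)

/-- `Tr X = X + ∑_j X ∣ S T^j` has `q`-expansion `A + p U_p B`.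
(`p1Family_famOf`, `P1Family.exists_trace`; `∑_j (X∣S)(z + j) = ∑_j Y ((z + j)/p) = p (U_p Y)(z)`,
`ModularFormClass.qCoeff_heckeU`.) -/
theorem TwoCusp.trace (h : TwoCusp p k A B) :
    ∃ G : ModularForm 𝒮ℒ k, qExpansion 1 G = A + (p : ℂ) • Up p B := by
  obtain ⟨X, Y, rfl, rfl, hXY⟩ := h
  have hp0 : p ≠ 0 := (Fact.out : p.Prime).ne_zero
  have hpC : (p : ℂ) ≠ 0 := by exact_mod_cast hp0
  have hfam := p1Family_famOf (k := k) (slash_Gamma0_eq X)
  obtain ⟨G, hG⟩ := hfam.exists_trace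
    (fun x => (ModularFormClass.holo X).slash k _)
    (fun x => ModularFormClass.bdd_at_infty_slash X _)
  refine ⟨G, ?_⟩
  have hGX : heckeU k p (⇑Y) = (p : ℂ)⁻¹ • (⇑G - ⇑X) := by
    funext z
    have h1 : G z = X z + (p : ℂ) * heckeU k p (⇑Y) z := by
      rw [hG, Finset.sum_apply, Fintype.sum_option, famOf_none, sum_famOf_some_eq X Y hXY]
    simp only [Pi.smul_apply, Pi.sub_apply, smul_eq_mul]
    rw [h1]
    field_simp
    ring
  have aG : AnalyticAt ℂ (cuspFunction 1 (⇑G)) 0 :=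
    ModularFormClass.analyticAt_cuspFunction_zero G one_pos one_mem_strictPeriods_SL
  have aX : AnalyticAt ℂ (cuspFunction 1 (⇑X)) 0 :=
    ModularFormClass.analyticAt_cuspFunction_zero X one_pos (one_mem_strictPeriods_Gamma0 p)
  have aGX : AnalyticAt ℂ (cuspFunction 1 (⇑G - ⇑X)) 0 := by
    rw [cuspFunction_sub aG.continuousAt aX.continuousAt]
    exact aG.sub aX
  have hq : qExpansion 1 (heckeU k p (⇑Y)) = (p : ℂ)⁻¹ • (qExpansion 1 G - qExpansion 1 X) := by
    rw [hGX, qExpansion_smul aGX, qExpansion_sub aG aX]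
  have hU : qExpansion 1 (heckeU k p (⇑Y)) = Up p (qExpansion 1 Y) := by
    ext n
    have := ModularFormClass.qCoeff_heckeU Y (one_mem_strictPeriods_Gamma0 p) hp0 n
    rw [coeff_Up, mul_comm p n]
    exact this
  rw [← hU, hq, smul_smul, mul_inv_cancel₀ hpC, one_smul]
  ring

/-- In weight `< 12` the trace vanishes as soon as its constant term does
(`sturm_levelOne_addSubgroup ⊥`). -/
theorem TwoCusp.trace_eq_zero (h : TwoCusp p k A B) (hk : k < 12)
    (h0 : PowerSeries.coeff 0 A + (p : ℂ) * PowerSeries.coeff 0 B = 0) :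
    A + (p : ℂ) • Up p B = 0 := by
  obtain ⟨G, hG⟩ := h.trace
  rw [← hG]
  ext m
  have := sturm_levelOne_addSubgroup ⊥ G (fun m hm => by
    have hm0 : m = 0 := by omega
    subst hm0
    rw [hG, AddSubgroup.mem_bot, map_add, PowerSeries.coeff_smul, coeff_Up, mul_zero, smul_eq_mul]
    exact h0) m
  simpa using this

/-- Weight two: `M₂(SL₂(ℤ)) = 0`, hence `w = -U_p`. -/
theorem TwoCusp.weight_two (h : TwoCusp p 2 A B) :
    B = (-(p : ℂ)⁻¹) • Up p A ∧ Up p (Up p A) = A := by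
  have hp0 : p ≠ 0 := (Fact.out : p.Prime).ne_zero
  have hpC : (p : ℂ) ≠ 0 := by exact_mod_cast hp0
  have zero : ∀ {A B : PowerSeries ℂ}, TwoCusp p 2 A B → A + (p : ℂ) • Up p B = 0 := by
    intro A B h
    obtain ⟨G, hG⟩ := h.trace
    have hG0 : G = 0 := rank_zero_iff_forall_zero.mp levelOne_weight_two_rank_zero G
    rw [← hG, hG0]
    exact qExpansion_zero 1
  have h1 := zero h
  have h2 := zero (h.swap even_two)
  have hB : B = (-(p : ℂ)⁻¹) • Up p A := by
    ext n
    have := congrArg (PowerSeries.coeff n) h2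
    simp only [map_add, PowerSeries.coeff_smul, coeff_Up, smul_eq_mul, map_zero] at this ⊢
    have e : (p : ℂ) ^ (-2 : ℤ) = ((p : ℂ)⁻¹) ^ 2 := by
      rw [zpow_neg, inv_pow]; norm_cast
    rw [e] at this
    have h3 : PowerSeries.coeff n B = - ((p : ℂ) * ((p : ℂ)⁻¹ ^ 2 * PowerSeries.coeff (p * n) A)) :=
      eq_neg_of_add_eq_zero_left this
    rw [h3]
    field_simp
  refine ⟨hB, ?_⟩
  ext n
  have := congrArg (PowerSeries.coeff n) h1
  rw [hB] at this
  simp only [map_add, PowerSeries.coeff_smul, coeff_Up, smul_eq_mul, map_zero] at this ⊢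
  have h3 : PowerSeries.coeff n A
      = - ((p : ℂ) * (-(p : ℂ)⁻¹ * PowerSeries.coeff (p * (p * n)) A)) :=
    eq_neg_of_add_eq_zero_left this
  rw [h3]
  field_simp

end Fermat.Agent.S16
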